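/-
Programme T1B (S44), cell R2/BRANDT, R2-FINAL, leaf H0-HUB / hD (helper29, for helper79/helper14):
**the residue map `res1K` of the branch at `∞` on `A`-integral `q`-series**, in the vocabulary of
`Unif77/Concrete` (`B0 A q ht ⊂ FK (M' * q) K`, `O1`, `res1K`, `Brandt96.resChart`).

* `res1K_eq_of_coe` : if `x ∈ O1` has `q`-expansion `x = Y₀` (over `ℚ̄`) with `Y₀ ∈ A((q))`, then
  `res1K x = Ȳ₀` (as `q`-series over `κ̄`);
* `resChart_eq_of_coe` : the same for `Brandt96.resChart (res1K ..) hle y`, `y ∈ B0`;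
* `resChart_h0K` **(hD)** : `resChart (res1K ..) hle ⟨h0K (M'*q) K q h4q, hmem⟩ = ⟨h0S κ̄ q, hDmem⟩`;
* `resChart_tN` : `resChart (res1K ..) hle ⟨tN q ht, _⟩ = ⟨tq κ̄ n e, _⟩` (the Hauptmodul reduces to
  `t̄`);
* `resChart_algebraMap` : constants: `resChart (res1K ..) hle (algebraMap (AK A K) B0 a) =
  algebraMap κ̄ k (ā)`.
-/
import Mathlib
import Fermat.Agent.T1B.Unif77.Concrete
import Fermat.Agent.T1B.TestElt79.Fricke

set_option autoImplicit false
set_option linter.unusedSectionVars false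
set_option linter.unusedVariables false
set_option linter.style.haveILetI false

noncomputable section

open HahnSeries ModularCurve IntermediateField AlgebraicCurve

namespace Fermat.Agent.T1B.AuxUnit29

open Fermat.Agent.RED.Interface4 Fermat.Agent.RED.PUR.GaussGen8
open Fermat.Agent.RED.PUR.ChartGeneric22
open Fermat.Agent.RED.DESC.PlaceExtend27 Fermat.Agent.RED.DESC.NumberFieldDVR27
open Fermat.Agent.RED.BASE.EtaQuot12
open Fermat.Agent.ES.N34.ModelDefs9 Fermat.Agent.ES.N34.NumData13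
open Fermat.Agent.T1B.Hecke3 Fermat.Agent.T1B.GaussW77 Fermat.Agent.T1B.Hol80
open Fermat.Agent.T1B.Brandt96 Fermat.Agent.T1B.Unif77 Fermat.Agent.T1B.TestElt79
open scoped Fermat.Agent.T1.Assembly41.FastInst

variable {A : ValuationSubring Qbar} {K : IntermediateField ℚ Qbar}
variable (M' q : ℕ) [NeZero M'] [NeZero q] {π : ↥(AK A K)}
variable (hπ : IsUnif (AK A K) π) (hE : FK (M' * q) K ≤ fracField (AK A K))
  (H : ∀ f : Fbar (M' * q), f ≠ 0 → Normalisable A (coeHom (M' * q) f))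
  (hrange : ∀ x : ↥(gaussVal A (coeHom (M' * q)) H),
    gaussResV A (coeHom (M' * q)) H x ∈ modularFunctionFieldFullC (Kap A) M')

/-- **`res1K` on `A`-integral series**: the residue is the coefficientwise reduction. -/
theorem res1K_eq_of_coe (x : ↥(O1 M' q hπ hE)) (Y₀ : LaurentSeries ↥A)
    (hx : coeffMap (algebraMap ↥K Qbar) (((x : ↥(FK (M' * q) K)) : LaurentSeries ↥K)) =
      coeffMap A.subtype Y₀) :
    ((res1K M' q hπ hE H hrange x : ↥(modularFunctionFieldFullC (Kap A) M')) :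
      LaurentSeries (Kap A)) = coeffMap (IsLocalRing.residue ↥A) Y₀ := by
  have h1 : IsIntRep A (coeHom (M' * q))
      (baseChangeHom (M' * q) K (x : ↥(FK (M' * q) K))) Y₀ 1 := by
    refine ⟨by rw [map_one]; exact one_ne_zero, ?_⟩
    rw [map_one, mul_one]
    exact hx
  refine (gaussRes_eq (f := gaussValToSub A (coeHom (M' * q)) H
    (valHom (baseChangeHom (M' * q) K) (O1 M' q hπ hE) (gaussVal A (coeHom (M' * q)) H)
      (mem_gaussVal_of_mem_O1 M' q hπ hE H) x)) h1).trans ?_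
  rw [map_one, div_one]

variable {n e : ℕ} [NeZero n] (ht : tq (↥K) n e ∈ FK M' K)

/-- the same for the residue map of the chart `B0`. -/
theorem resChart_eq_of_coe
    (hle : ∀ b : ↥(B0 A q ht), algebraMap ↥(B0 A q ht) ↥(FK (M' * q) K) b ∈ O1 M' q hπ hE)
    (y : ↥(B0 A q ht)) (Y₀ : LaurentSeries ↥A)
    (hy : coeffMap (algebraMap ↥K Qbar) (((y : ↥(FK (M' * q) K)) : LaurentSeries ↥K)) =
      coeffMap A.subtype Y₀)
    (hmem : coeffMap (IsLocalRing.residue ↥A) Y₀ ∈ modularFunctionFieldFullC (Kap A) M') :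
    resChart (res1K M' q hπ hE H hrange) hle y = ⟨coeffMap (IsLocalRing.residue ↥A) Y₀, hmem⟩ :=
  Subtype.ext (res1K_eq_of_coe M' q hπ hE H hrange
    (toO (O1 M' q hπ hE) (algebraMap ↥(B0 A q ht) ↥(FK (M' * q) K)) hle y) Y₀ hy)

/-- **(hD)**: the residue of the test element `h0K` on the hub chart is `D̄ = h0S κ̄ q`. -/
theorem resChart_h0K (h4q : 4 * q ∣ M' * q)
    (hmem : h0K (M' * q) K q h4q ∈ B0 A q ht)
    (hle : ∀ b : ↥(B0 A q ht), algebraMap ↥(B0 A q ht) ↥(FK (M' * q) K) b ∈ O1 M' q hπ hE)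
    (hDmem : h0S (Kap A) q ∈ modularFunctionFieldFullC (Kap A) M') :
    resChart (res1K M' q hπ hE H hrange) hle ⟨h0K (M' * q) K q h4q, hmem⟩ =
      ⟨h0S (Kap A) q, hDmem⟩ := by
  have hm : coeffMap (IsLocalRing.residue ↥A) (h0S ↥A q) ∈
      modularFunctionFieldFullC (Kap A) M' := by
    rw [coeffMap_h0S]; exact hDmem
  rw [resChart_eq_of_coe M' q hπ hE H hrange ht hle ⟨h0K (M' * q) K q h4q, hmem⟩ (h0S ↥A q)
    (by
      show coeffMap (algebraMap ↥K Qbar) (h0S ↥K q) = _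
      rw [coeffMap_h0S, coeffMap_h0S]) hm]
  exact Subtype.ext (coeffMap_h0S q _)

/-- the residue of the Hauptmodul on the hub chart is `t̄`. -/
theorem resChart_tN
    (hle : ∀ b : ↥(B0 A q ht), algebraMap ↥(B0 A q ht) ↥(FK (M' * q) K) b ∈ O1 M' q hπ hE)
    (hmem : tN q ht ∈ B0 A q ht)
    (htmem : tq (Kap A) n e ∈ modularFunctionFieldFullC (Kap A) M') :
    resChart (res1K M' q hπ hE H hrange) hle ⟨tN q ht, hmem⟩ = ⟨tq (Kap A) n e, htmem⟩ := by
  have hm : coeffMap (IsLocalRing.residue ↥A) (tq ↥A n e) ∈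
      modularFunctionFieldFullC (Kap A) M' := by
    rw [coeffMap_tq]; exact htmem
  rw [resChart_eq_of_coe M' q hπ hE H hrange ht hle ⟨tN q ht, hmem⟩ (tq ↥A n e)
    (by
      show coeffMap (algebraMap ↥K Qbar) ((tN q ht : ↥(FK (M' * q) K)) : LaurentSeries ↥K) = _
      rw [coe_tN, coeffMap_tq, coeffMap_tq]) hm]
  exact Subtype.ext (coeffMap_tq _ _ n e)

/-- the residue of a constant of `A ∩ K` on the hub chart is its class in `κ̄`. -/
theorem resChart_algebraMap
    (hle : ∀ b : ↥(B0 A q ht), algebraMap ↥(B0 A q ht) ↥(FK (M' * q) K) b ∈ O1 M' q hπ hE)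
    (a : ↥(AK A K)) :
    resChart (res1K M' q hπ hE H hrange) hle (algebraMap ↥(AK A K) ↥(B0 A q ht) a) =
      algebraMap (Kap A) ↥(modularFunctionFieldFullC (Kap A) M')
        (IsLocalRing.residue ↥A (incl A K a)) := by
  apply Subtype.ext
  refine (res1K_eq_of_coe M' q hπ hE H hrange
    (toO (O1 M' q hπ hE) (algebraMap ↥(B0 A q ht) ↥(FK (M' * q) K)) hle
      (algebraMap ↥(AK A K) ↥(B0 A q ht) a)) (HahnSeries.C (incl A K a))
    (by
      show coeffMap (algebraMap ↥K Qbar)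
        ((algebraMap ↥(AK A K) ↥(FK (M' * q) K) a : ↥(FK (M' * q) K)) : LaurentSeries ↥K) = _
      rw [Fermat.Agent.RED.NumInst4.coe_algebraMap_OE, Fermat.Agent.RED.PUR.GaussGen8.coeffMap_C,
        Fermat.Agent.RED.PUR.GaussGen8.coeffMap_C]
      rfl)).trans ?_
  rw [Fermat.Agent.RED.PUR.GaussGen8.coeffMap_C]
  exact (algebraMap_eq_C _).symm

end Fermat.Agent.T1B.AuxUnit29
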