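/-
Programme T1B (S44), cell R2/BRANDT, W4 (G2) AUX-UNIT, part (iv) (helper29): **integrality over a
polynomial ring `R[T]` as an explicit polynomial relation**, so that it can be transported along
coefficient maps (`K((q)) ⊇ O((q)) → κ((q))`).

`IntRel a T Y` (`a : R →+* S`, `T Y : S`): there is a polynomial `P ∈ R[X][Z]`, monic in `Z`, with
`P(T, Y) = 0`.

* `IntRel.map` : transport along a commutative square of ring homomorphisms;
* `IntRel.of_map_injective` : descent along an injective ring homomorphism;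
* `intRel_of_isIntegral_adjoin`, `IntRel.isIntegral_adjoin` : `IntRel (algebraMap R S) T Y` is
  `IsIntegral (Algebra.adjoin R {T}) Y`;
* `IntRel.mem_valuationSubring` : a valuation subring containing `a R` and `T` contains `Y`.

Mathlib only.
-/
import Mathlib

set_option autoImplicit false

namespace Fermat.Agent.T1B.AuxUnit29

open Polynomial

variable {R S : Type*} [CommRing R] [CommRing S]

/-- `Y` satisfies a polynomial relation `P(T, Y) = 0` with `P ∈ R[X][Z]` monic in `Z`. -/
def IntRel (a : R →+* S) (T Y : S) : Prop :=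
  ∃ P : Polynomial (Polynomial R), P.Monic ∧ P.eval₂ (Polynomial.eval₂RingHom a T) Y = 0

/-- the square `ψ ∘ ev_{a,T} = ev_{a',ψ T} ∘ map φ`. -/
theorem eval₂RingHom_comp_map {R' S' : Type*} [CommRing R'] [CommRing S'] (a : R →+* S) (T : S)
    (φ : R →+* R') (ψ : S →+* S') (a' : R' →+* S') (hc : ψ.comp a = a'.comp φ) :
    (Polynomial.eval₂RingHom a' (ψ T)).comp (Polynomial.mapRingHom φ) =
      ψ.comp (Polynomial.eval₂RingHom a T) := by
  apply Polynomial.ringHom_ext
  · intro r
    simp only [RingHom.comp_apply, Polynomial.coe_mapRingHom, Polynomial.map_C,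
      Polynomial.coe_eval₂RingHom, Polynomial.eval₂_C]
    exact (RingHom.congr_fun hc r).symm
  · simp only [RingHom.comp_apply, Polynomial.coe_mapRingHom, Polynomial.map_X,
      Polynomial.coe_eval₂RingHom, Polynomial.eval₂_X]

/-- **Transport of a relation** along a commutative square. -/
theorem IntRel.map {R' S' : Type*} [CommRing R'] [CommRing S'] {a : R →+* S} {T Y : S}
    (h : IntRel a T Y) (φ : R →+* R') (ψ : S →+* S') (a' : R' →+* S')
    (hc : ψ.comp a = a'.comp φ) : IntRel a' (ψ T) (ψ Y) := by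
  obtain ⟨P, hP, hPY⟩ := h
  refine ⟨P.map (Polynomial.mapRingHom φ), hP.map _, ?_⟩
  rw [Polynomial.eval₂_map, eval₂RingHom_comp_map a T φ ψ a' hc, ← Polynomial.hom_eval₂, hPY,
    map_zero]

/-- **Descent of a relation** along an injective ring homomorphism. -/
theorem IntRel.of_map_injective {S' : Type*} [CommRing S'] {a : R →+* S} {T Y : S}
    (ψ : S →+* S') (hψ : Function.Injective ψ) (h : IntRel (ψ.comp a) (ψ T) (ψ Y)) :
    IntRel a T Y := by
  obtain ⟨P, hP, hPY⟩ := h
  refine ⟨P, hP, hψ ?_⟩
  have hsq := eval₂RingHom_comp_map a T (RingHom.id R) ψ (ψ.comp a) (by rw [RingHom.comp_id])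
  rw [map_zero, Polynomial.hom_eval₂, ← hsq]
  rw [Polynomial.mapRingHom_id, RingHom.comp_id]
  exact hPY

section Algebra

variable [Algebra R S]

theorem eval₂RingHom_algebraMap_mem_adjoin (T : S) (p : Polynomial R) :
    Polynomial.eval₂RingHom (algebraMap R S) T p ∈ Algebra.adjoin R {T} := by
  have h : Polynomial.eval₂RingHom (algebraMap R S) T p = Polynomial.aeval T p := rfl
  rw [h, Algebra.adjoin_singleton_eq_range_aeval]
  exact ⟨p, rfl⟩

/-- a relation gives integrality over `R[T]`. -/
theorem IntRel.isIntegral_adjoin {T Y : S} (h : IntRel (algebraMap R S) T Y) :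
    IsIntegral (Algebra.adjoin R {T}) Y := by
  obtain ⟨P, hP, hPY⟩ := h
  let g : Polynomial R →+* ↥(Algebra.adjoin R {T}) :=
    (Polynomial.eval₂RingHom (algebraMap R S) T).codRestrict (Algebra.adjoin R {T})
      (eval₂RingHom_algebraMap_mem_adjoin T)
  refine ⟨P.map g, hP.map _, ?_⟩
  rw [Polynomial.eval₂_map]
  have : (algebraMap ↥(Algebra.adjoin R {T}) S).comp g =
      Polynomial.eval₂RingHom (algebraMap R S) T := by
    ext p <;> rfl
  rw [this]
  exact hPY

/-- integrality over `R[T]` gives a relation. -/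
theorem intRel_of_isIntegral_adjoin {T Y : S} (h : IsIntegral (Algebra.adjoin R {T}) Y) :
    IntRel (algebraMap R S) T Y := by
  obtain ⟨Q, hQ, hQY⟩ := h
  rcases subsingleton_or_nontrivial S with hS | hS
  · exact ⟨1, Polynomial.monic_one, Subsingleton.elim _ _⟩
  have : Nontrivial ↥(Algebra.adjoin R {T}) :=
    ⟨⟨0, 1, fun h => zero_ne_one (α := S) (congrArg Subtype.val h)⟩⟩
  let g : Polynomial R →+* ↥(Algebra.adjoin R {T}) :=
    (Polynomial.eval₂RingHom (algebraMap R S) T).codRestrict (Algebra.adjoin R {T})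
      (eval₂RingHom_algebraMap_mem_adjoin T)
  have hg : Function.Surjective g := by
    rintro ⟨c, hc⟩
    rw [Algebra.adjoin_singleton_eq_range_aeval] at hc
    obtain ⟨p, hp⟩ := hc
    exact ⟨p, Subtype.ext hp⟩
  have hlift : Q ∈ Polynomial.lifts g := by
    rw [Polynomial.lifts_iff_coeff_lifts]
    intro n
    exact Set.mem_range.2 (hg (Q.coeff n))
  obtain ⟨P, hPQ, -, hPm⟩ := Polynomial.lifts_and_degree_eq_and_monic hlift hQ
  refine ⟨P, hPm, ?_⟩
  have hcomp : (algebraMap ↥(Algebra.adjoin R {T}) S).comp g =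
      Polynomial.eval₂RingHom (algebraMap R S) T := by
    ext p <;> rfl
  rw [← hcomp, ← Polynomial.eval₂_map, hPQ]
  exact hQY

end Algebra

/-- **A valuation subring containing the constants and `T` contains `Y`.** -/
theorem IntRel.mem_valuationSubring {F : Type*} [Field F] (O : ValuationSubring F) {a : R →+* F}
    {T Y : F} (ha : ∀ r, a r ∈ O) (hT : T ∈ O) (h : IntRel a T Y) : Y ∈ O := by
  obtain ⟨P, hP, hPY⟩ := h
  have hmem : ∀ p : Polynomial R, Polynomial.eval₂RingHom a T p ∈ O := by
    intro p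
    induction p using Polynomial.induction_on with
    | C r => simpa using ha r
    | add p q hp hq => rw [map_add]; exact O.add_mem _ _ hp hq
    | monomial n r _ =>
      simp only [Polynomial.coe_eval₂RingHom, Polynomial.eval₂_mul, Polynomial.eval₂_C,
        Polynomial.eval₂_X_pow]
      exact O.mul_mem _ _ (ha r) (pow_mem hT _)
  let g : Polynomial R →+* ↥O := (Polynomial.eval₂RingHom a T).codRestrict O.toSubring hmem
  have hint : IsIntegral ↥O Y := by
    refine ⟨P.map g, hP.map _, ?_⟩
    rw [Polynomial.eval₂_map]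
    have : (algebraMap ↥O F).comp g = Polynomial.eval₂RingHom a T := by
      ext p <;> rfl
    rw [this]
    exact hPY
  obtain ⟨y, hy⟩ := (IsIntegrallyClosed.isIntegral_iff (R := ↥O) (K := F)).mp hint
  rw [← hy]
  exact y.2

end Fermat.Agent.T1B.AuxUnit29
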