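/-
Programme T1B (S44), cell R2/BRANDT, W4 (G2) AUX-UNIT, part (iv) (helper29): **the modular equation
of the Hauptmodul in characteristic `p`**.

`(n, e) = (4, 8)` or `(9, 3)` (`hb : BaseHyp n e`), `l` a prime not dividing `n`, `p` a prime not
dividing `n l`, `A ≤ ℚ̄` a valuation ring over `p`, `κ = kA A` its residue field, `t̄ = tq κ n e`:

  `intRel_res : IntRel C t̄ t̄(q^l)`   — `t̄(q^l)` is integral over `κ[t̄]` in `κ((q))`.

Route: char. `0` integrality over `K[t]` (`ModEq23.isIntegral_yN`) + `ϖ`-saturation of the chart ring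
in the Gauss valuation ring at the GOOD level `n l` (`LevelSat16.levelSat_t'`) give integrality over
`(A ∩ K)[t]` (`SatIntegral18.mem_of_isIntegral_field`); the resulting polynomial relation is
transported `K·F_{nl} → K((q)) ⊇ (A ∩ K)((q)) → κ((q))` (`IntRel`).
-/
import Mathlib
import Fermat.Agent.T1B.AuxUnit29.IntRel
import Fermat.Agent.ES.N34.ModEq23
import Fermat.Agent.ES.RED.LevelSat16
import Fermat.Agent.RED.ModelFinal4
import Fermat.Agent.RED.CUSP.RankConcrete16
import Fermat.Agent.ES.RED.Contract8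

set_option autoImplicit false
set_option linter.unusedSectionVars false
set_option linter.style.haveILetI false
set_option synthInstance.maxHeartbeats 400000

open ModularCurve HahnSeries

noncomputable section

namespace Fermat.Agent.T1B.AuxUnit29

open Fermat.Agent.RED.Interface4 Fermat.Agent.RED.DESC.NumberFieldDVR27
open Fermat.Agent.RED.PUR.GaussGen8 Fermat.Agent.RED.PUR.GaussBridge10
open Fermat.Agent.RED.PUR.ChartGeneric22
open Fermat.Agent.RED.BASE.EtaQuot12 Fermat.Agent.RED.BASE.Interface12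
open Fermat.Agent.RED.BASE.Hauptmodul12
open Fermat.Agent.ES.N34.ModelDefs9 Fermat.Agent.ES.N34.ModEq23
open Fermat.Agent.ES.N34.SatIntegral18
open Fermat.Agent.ES.RED.ChartIntegralA1 Fermat.Agent.ES.RED.LevelSat16
open Fermat.Agent.ES.RED.Contract8

variable {n e : ℕ} [NeZero n] (l : ℕ) [NeZero l] (p : ℕ) [Fact p.Prime]
  (A : ValuationSubring Qbar) (hA : A.LiesOverPrime p)

include hA in
set_option maxHeartbeats 4000000 in
/-- **Integrality over `(A ∩ K)[t]`** of `t(q^l)` in `K·F_{nl}`, for a suitable number field `K`. -/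
theorem exists_isIntegral_yN (hb : BaseHyp n e) (hl : l.Prime) (hln : ¬ l ∣ n)
    (hp : ¬ p ∣ n * l) :
    ∃ (K : IntermediateField ℚ Qbar) (ht : tq (↥K) n e ∈ FK n K),
      IsIntegral (Algebra.adjoin ↥(AK A K) {tN l ht}) (yN l ht) := by
  have hpp : p.Prime := Fact.out
  have hmemL : TMem n e (n * l) := tMem_of_dvd hb (dvd_mul_right n l)
  obtain ⟨K₂, hfin₂, Hsat⟩ := levelSat_t' A n e p hp hmemL (tGenBase' hb) hA
  obtain ⟨K₁, hfin₁, HT⟩ := Fermat.Agent.RED.ModelFinal4.tTarget (n := n) (e := e) n (tMem hb)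
  haveI := hfin₁
  haveI := hfin₂
  have hfin : FiniteDimensional ℚ ↥(K₁ ⊔ K₂) := inferInstance
  refine ⟨K₁ ⊔ K₂, HT (K₁ ⊔ K₂) hfin le_sup_left, ?_⟩
  set K := K₁ ⊔ K₂ with hK
  set ht := HT K hfin le_sup_left with hht
  haveI hdvr : IsDiscreteValuationRing ↥(AK A K) := isDiscreteValuationRing_AK A K hpp.ne_zero hA
  obtain ⟨ϖ, hϖ⟩ := IsDiscreteValuationRing.exists_irreducible ↥(AK A K)
  have hu : IsUnif (AK A K) ϖ := isUnif_of_irreducible (AK A K) hϖ
  have hsatK := Hsat K hfin le_sup_right ϖ hϖ hu (tN l ht)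
    (Fermat.Agent.RED.CUSP.RankConcrete16.baseChangeHom_eq_tF (n * l) K hmemL (tN l ht)
      (coe_tN l ht))
  have dvrR : ∀ r : ↥(AK A K), r ≠ 0 → ∃ (k : ℕ) (v : (↥(AK A K))ˣ), r = ϖ ^ k * v := by
    intro r hr
    obtain ⟨k, v, hv⟩ := IsDiscreteValuationRing.eq_unit_mul_pow_irreducible hr hϖ
    exact ⟨k, v, by rw [hv, mul_comm]⟩
  have hπ : algebraMap ↥(AK A K) ↥(FK (n * l) K) ϖ ∈ OvK A K (n * l) hu :=
    algebraMap_mem_OvK A (n * l) K hu ϖ
  have hy : yN l ht ∈ OvK A K (n * l) hu := by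
    rw [mem_OvK_iff, coe_yN]
    have h1 : qExpand (↥K) l (tq (↥K) n e) =
        embK (AK A K) (qExpand ↥(AK A K) l (tq ↥(AK A K) n e)) := by
      unfold embK
      rw [ModularCurve.coeffMap_qExpand, coeffMap_tq]
    rw [h1]
    exact embK_mem (AK A K) _
  have hB : ∀ x : ↥(FK (n * l) K), IsIntegral (Algebra.adjoin ↥(AK A K) {tN l ht}) x →
      x ∈ chart ↥(AK A K) (tN l ht) := fun x hx => mem_chart_iff.2 hx
  have hI := isIntegral_yN (K := K) (M' := n) l hb hl hln ht
  have hmem : yN l ht ∈ chart ↥(AK A K) (tN l ht) :=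
    mem_of_isIntegral_field (R := ↥(AK A K)) (K := ↥K) (F := ↥(FK (n * l) K)) ϖ dvrR
      (tN l ht) (chart ↥(AK A K) (tN l ht)) hB (OvK A K (n * l) hu) (OvK A K (n * l) hu) hπ hπ
      (fun b hb c hc _ hbc => hsatK b hb c hc hbc) hI hy hy
  exact mem_chart_iff.1 hmem

end Fermat.Agent.T1B.AuxUnit29
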