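/-
Programme T1B (S44), cell R2/BRANDT, W4 (G2) AUX-UNIT, part (iv) (helper29): **the modular equation
of the Hauptmodul in characteristic `p`, as a relation in `κ((q))`**.

`(n, e) = (4, 8)` or `(9, 3)` (`hb : BaseHyp n e`), `l` a prime not dividing `n`, `p` a prime not
dividing `n l`, `A ≤ ℚ̄` a valuation ring over `p`, `κ = A / 𝔪_A` its residue field, `t̄ = tq κ n e`:

* `intRel_res : IntRel C t̄ t̄(q^l)` — there is `P ∈ κ[X][Z]`, monic in `Z`, with `P(t̄, t̄(q^l)) = 0`;
* `isIntegral_res` : `t̄(q^l)` is integral over `κ[t̄] ⊂ κ((q))`;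
* `qExpand_tq_mem_of_tq_mem` : a valuation subring of any subfield `k ⊂ κ((q))` (containing both
  series) which contains the constants and `t̄` contains `t̄(q^l)`.

Route: `ModEqRes.exists_isIntegral_yN` (integrality over `(A ∩ K)[t]` in `K·F_{nl}`) and transport of
the polynomial relation `K·F_{nl} → K((q)) ⊇ (A ∩ K)((q)) → κ((q))` (`IntRel.map`,
`IntRel.of_map_injective`).
-/
import Mathlib
import Fermat.Agent.T1B.AuxUnit29.ModEqRes

set_option autoImplicit false
set_option linter.unusedSectionVars false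
set_option linter.style.haveILetI false
set_option synthInstance.maxHeartbeats 400000

open ModularCurve HahnSeries

noncomputable section

namespace Fermat.Agent.T1B.AuxUnit29

open Fermat.Agent.RED.Interface4 Fermat.Agent.RED.DESC.NumberFieldDVR27
open Fermat.Agent.RED.PUR.GaussGen8
open Fermat.Agent.RED.BASE.EtaQuot12 Fermat.Agent.RED.BASE.Interface12
open Fermat.Agent.RED.BASE.Hauptmodul12
open Fermat.Agent.ES.N34.ModelDefs9

variable {n e : ℕ} [NeZero n] (l : ℕ) [NeZero l] (p : ℕ) [Fact p.Prime]
  (A : ValuationSubring Qbar) (hA : A.LiesOverPrime p)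

include hA in
set_option maxHeartbeats 1000000 in
/-- **The modular equation of `t̄` at `l` in characteristic `p`**: `t̄(q^l)` satisfies a polynomial
relation, monic in the second variable, over `κ[t̄]`. -/
theorem intRel_res (hb : BaseHyp n e) (hl : l.Prime) (hln : ¬ l ∣ n) (hp : ¬ p ∣ n * l) :
    IntRel (HahnSeries.C : IsLocalRing.ResidueField ↥A →+* LaurentSeries (IsLocalRing.ResidueField ↥A))
      (tq (IsLocalRing.ResidueField ↥A) n e)
      (qExpand (IsLocalRing.ResidueField ↥A) l (tq (IsLocalRing.ResidueField ↥A) n e)) := by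
  obtain ⟨K, ht, hI⟩ := exists_isIntegral_yN l p A hA hb hl hln hp
  -- the relation in `K·F_{nl}`
  have h1 := intRel_of_isIntegral_adjoin hI
  -- the relation in `K((q))`
  have h2 := h1.map (RingHom.id _) (FK (n * l) K).val.toRingHom
    ((embK (AK A K)).comp HahnSeries.C) (RingHom.ext fun r => by
      simp only [RingHom.comp_apply, RingHom.id_apply]
      rw [embK_C]
      exact Fermat.Agent.RED.NumInst4.coe_algebraMap_OE (AK A K) (FK (n * l) K) r)
  have hT : (FK (n * l) K).val.toRingHom (tN l ht) = embK (AK A K) (tq ↥(AK A K) n e) := by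
    show ((tN l ht : FK (n * l) K) : LaurentSeries K) = _
    rw [coe_tN]
    unfold embK
    rw [coeffMap_tq]
  have hY : (FK (n * l) K).val.toRingHom (yN l ht) =
      embK (AK A K) (qExpand ↥(AK A K) l (tq ↥(AK A K) n e)) := by
    show ((yN l ht : FK (n * l) K) : LaurentSeries K) = _
    rw [coe_yN]
    unfold embK
    rw [ModularCurve.coeffMap_qExpand, coeffMap_tq]
  rw [hT, hY] at h2
  -- the relation in `(A ∩ K)((q))`
  have h3 := IntRel.of_map_injective (embK (AK A K)) (embK_injective _) h2
  -- the relation in `κ((q))`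
  have h4 := h3.map ((IsLocalRing.residue ↥A).comp (incl A K))
    (coeffMap ((IsLocalRing.residue ↥A).comp (incl A K))) HahnSeries.C (RingHom.ext fun r => by
      simp only [RingHom.comp_apply]
      rw [Fermat.Agent.RED.PUR.GaussGen8.coeffMap_C]
      rfl)
  rw [ModularCurve.coeffMap_qExpand, coeffMap_tq] at h4
  exact h4

include hA in
/-- **`t̄(q^l)` is integral over `κ[t̄]`** (`l` prime, `l ∤ n`, `p ∤ n l`). -/
theorem isIntegral_res (hb : BaseHyp n e) (hl : l.Prime) (hln : ¬ l ∣ n) (hp : ¬ p ∣ n * l) :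
    IsIntegral (Algebra.adjoin (IsLocalRing.ResidueField ↥A)
        {tq (IsLocalRing.ResidueField ↥A) n e})
      (qExpand (IsLocalRing.ResidueField ↥A) l (tq (IsLocalRing.ResidueField ↥A) n e)) := by
  have h := intRel_res l p A hA hb hl hln hp
  have hC : (HahnSeries.C : IsLocalRing.ResidueField ↥A →+*
      LaurentSeries (IsLocalRing.ResidueField ↥A)) =
      algebraMap (IsLocalRing.ResidueField ↥A) (LaurentSeries (IsLocalRing.ResidueField ↥A)) :=
    RingHom.ext fun r => (algebraMap_eq_C r).symm
  rw [hC] at h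
  exact h.isIntegral_adjoin

include hA in
/-- **Regularity of `t̄(q^l)` where `t̄` is regular**: if `k ⊂ κ((q))` is an intermediate field
containing `t̄` and `t̄(q^l)`, every valuation subring of `k` containing the constants and `t̄`
contains `t̄(q^l)`. -/
theorem qExpand_tq_mem_of_tq_mem (hb : BaseHyp n e) (hl : l.Prime) (hln : ¬ l ∣ n)
    (hp : ¬ p ∣ n * l)
    (k : IntermediateField (IsLocalRing.ResidueField ↥A)
      (LaurentSeries (IsLocalRing.ResidueField ↥A)))
    (ht : tq (IsLocalRing.ResidueField ↥A) n e ∈ k)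
    (hy : qExpand (IsLocalRing.ResidueField ↥A) l (tq (IsLocalRing.ResidueField ↥A) n e) ∈ k)
    (O : ValuationSubring ↥k)
    (hO : ∀ c : IsLocalRing.ResidueField ↥A, algebraMap (IsLocalRing.ResidueField ↥A) ↥k c ∈ O)
    (hreg : (⟨tq (IsLocalRing.ResidueField ↥A) n e, ht⟩ : ↥k) ∈ O) :
    (⟨qExpand (IsLocalRing.ResidueField ↥A) l (tq (IsLocalRing.ResidueField ↥A) n e), hy⟩ : ↥k)
      ∈ O := by
  have h := intRel_res l p A hA hb hl hln hp
  have h' : IntRel (algebraMap (IsLocalRing.ResidueField ↥A) ↥k)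
      (⟨tq (IsLocalRing.ResidueField ↥A) n e, ht⟩ : ↥k)
      (⟨qExpand (IsLocalRing.ResidueField ↥A) l (tq (IsLocalRing.ResidueField ↥A) n e), hy⟩ : ↥k) := by
    refine IntRel.of_map_injective k.val.toRingHom k.val.toRingHom.injective ?_
    have hC : (k.val.toRingHom).comp (algebraMap (IsLocalRing.ResidueField ↥A) ↥k) =
        (HahnSeries.C : IsLocalRing.ResidueField ↥A →+*
          LaurentSeries (IsLocalRing.ResidueField ↥A)) :=
      RingHom.ext fun r => algebraMap_eq_C r
    rw [hC]
    exact h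
  exact h'.mem_valuationSubring O hO hreg

end Fermat.Agent.T1B.AuxUnit29
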