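/-
Programme T1B (S44), cell R2/BRANDT, W4 (G2) AUX-UNIT, part (iv) (helper29): **`β̄^* w` lies in the
chart `t̄ ≠ ∞` whenever `ᾱ^* w` does** — the hypothesis `hReg` of `Brandt36.node_of_aux` /
`Brandt36.brandtW_one_of_aux` for `Reg v := (t̄ regular at v)`.

`κ = A / 𝔪_A`, `k_N = modularFunctionFieldFullC κ N`, `ᾱ = Brandt27.alphaC κ N l`,
`β̄ = Brandt27.betaC κ N l : k_N → k_{N l}`, `t̄ = tq κ n e ∈ k_N` (`ht`):

* `RegT A N ht v` : `t̄ ∈ O_v`;
* `regT_restrictAlong_betaC` : `RegT (ᾱ^* w) → RegT (β̄^* w)`;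
* `hReg_of_nodes` : the `hReg` of `Brandt36.node_of_aux`, from `RegT (vE e)` for all nodes `e`;
* `hReg_of_nodes_four` : the same for `(n, e) = (4, 8)`, `4 ∣ N`, side conditions in terms of `N`;
* `tq_res_mem_fullC` (bonus): `t̄ ∈ k_N` when `t ∈ ℚ̄·F_N` (`TMem n e N`, e.g. `4 ∣ N`), `p ∤ N`.
-/
import Mathlib
import Fermat.Agent.T1B.AuxUnit29.ModEqKappa
import Fermat.Agent.T1B.Brandt27.DegreeC
import Fermat.Agent.ES.RED.RedMem16

set_option autoImplicit false
set_option linter.unusedSectionVars false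
set_option linter.style.haveILetI false
set_option synthInstance.maxHeartbeats 400000

open ModularCurve HahnSeries AlgebraicCurve

noncomputable section

namespace Fermat.Agent.T1B.AuxUnit29

open Fermat.Agent.RED.Interface4
open Fermat.Agent.RED.BASE.EtaQuot12 Fermat.Agent.RED.BASE.Interface12
open Fermat.Agent.RED.BASE.Hauptmodul12
open Fermat.Agent.T1B.Brandt27

section Generic

variable {K F F' : Type*} [Field K] [Field F] [Field F'] [Algebra K F] [Algebra K F']

theorem mem_restrictAlong_iff' (φ : F →ₐ[K] F') (hφ : φ.toRingHom.IsIntegral) (w : Place K F')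
    (a : F) : a ∈ (w.restrictAlong φ hφ).toValuationSubring ↔ φ a ∈ w.toValuationSubring :=
  Iff.rfl

end Generic

variable {n e : ℕ} [NeZero n] (l : ℕ) [NeZero l] (p : ℕ) [Fact p.Prime]
  (A : ValuationSubring Qbar) (hA : A.LiesOverPrime p) (N : ℕ) [NeZero N]

/-- **`t̄` is regular at `v`**: the Hauptmodul `t̄ = tq κ n e ∈ k_N` lies in the valuation ring
of the place `v`. -/
def RegT (ht : tq (IsLocalRing.ResidueField ↥A) n e ∈
      modularFunctionFieldFullC (IsLocalRing.ResidueField ↥A) N)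
    (v : Place (IsLocalRing.ResidueField ↥A)
      ↥(modularFunctionFieldFullC (IsLocalRing.ResidueField ↥A) N)) : Prop :=
  (⟨tq (IsLocalRing.ResidueField ↥A) n e, ht⟩ :
    ↥(modularFunctionFieldFullC (IsLocalRing.ResidueField ↥A) N)) ∈ v.toValuationSubring

include hA in
/-- place form of `qExpand_tq_mem_of_tq_mem`. -/
theorem qExpand_tq_mem_place (hb : BaseHyp n e) (hl : l.Prime) (hln : ¬ l ∣ n)
    (hp : ¬ p ∣ n * l)
    (k : IntermediateField (IsLocalRing.ResidueField ↥A)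
      (LaurentSeries (IsLocalRing.ResidueField ↥A)))
    (ht : tq (IsLocalRing.ResidueField ↥A) n e ∈ k)
    (hy : qExpand (IsLocalRing.ResidueField ↥A) l (tq (IsLocalRing.ResidueField ↥A) n e) ∈ k)
    (w : Place (IsLocalRing.ResidueField ↥A) ↥k)
    (hreg : (⟨tq (IsLocalRing.ResidueField ↥A) n e, ht⟩ : ↥k) ∈ w.toValuationSubring) :
    (⟨qExpand (IsLocalRing.ResidueField ↥A) l (tq (IsLocalRing.ResidueField ↥A) n e), hy⟩ : ↥k)
      ∈ w.toValuationSubring :=
  qExpand_tq_mem_of_tq_mem l p A hA hb hl hln hp k ht hy w.toValuationSubring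
    w.algebraMap_mem' hreg

include hA in
/-- **(iv)**: if `t̄` is regular at `ᾱ^* w` then it is regular at `β̄^* w`. -/
theorem regT_restrictAlong_betaC (hb : BaseHyp n e) (hl : l.Prime) (hln : ¬ l ∣ n)
    (hp : ¬ p ∣ n * l)
    (ht : tq (IsLocalRing.ResidueField ↥A) n e ∈
      modularFunctionFieldFullC (IsLocalRing.ResidueField ↥A) N)
    (hα : (alphaC (IsLocalRing.ResidueField ↥A) N l).toRingHom.IsIntegral)
    (hβ : (betaC (IsLocalRing.ResidueField ↥A) N l).toRingHom.IsIntegral)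
    (w : Place (IsLocalRing.ResidueField ↥A)
      ↥(modularFunctionFieldFullC (IsLocalRing.ResidueField ↥A) (N * l)))
    (hw : RegT A N ht (w.restrictAlong (alphaC (IsLocalRing.ResidueField ↥A) N l) hα)) :
    RegT A N ht (w.restrictAlong (betaC (IsLocalRing.ResidueField ↥A) N l) hβ) := by
  have hw' : alphaC (IsLocalRing.ResidueField ↥A) N l ⟨_, ht⟩ ∈ w.toValuationSubring := hw
  show betaC (IsLocalRing.ResidueField ↥A) N l ⟨_, ht⟩ ∈ w.toValuationSubring
  have hta : tq (IsLocalRing.ResidueField ↥A) n e ∈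
      modularFunctionFieldFullC (IsLocalRing.ResidueField ↥A) (N * l) := by
    have := (alphaC (IsLocalRing.ResidueField ↥A) N l ⟨_, ht⟩).2
    rwa [coe_alphaC (IsLocalRing.ResidueField ↥A) N l ⟨_, ht⟩] at this
  have hya : qExpand (IsLocalRing.ResidueField ↥A) l (tq (IsLocalRing.ResidueField ↥A) n e) ∈
      modularFunctionFieldFullC (IsLocalRing.ResidueField ↥A) (N * l) :=
    (betaC (IsLocalRing.ResidueField ↥A) N l ⟨_, ht⟩).2
  have hEqa : alphaC (IsLocalRing.ResidueField ↥A) N l ⟨_, ht⟩ =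
      (⟨tq (IsLocalRing.ResidueField ↥A) n e, hta⟩ :
        ↥(modularFunctionFieldFullC (IsLocalRing.ResidueField ↥A) (N * l))) :=
    Subtype.ext (coe_alphaC (IsLocalRing.ResidueField ↥A) N l ⟨_, ht⟩)
  have hEqb : betaC (IsLocalRing.ResidueField ↥A) N l ⟨_, ht⟩ =
      (⟨qExpand (IsLocalRing.ResidueField ↥A) l (tq (IsLocalRing.ResidueField ↥A) n e), hya⟩ :
        ↥(modularFunctionFieldFullC (IsLocalRing.ResidueField ↥A) (N * l))) :=
    Subtype.ext (coe_betaC (IsLocalRing.ResidueField ↥A) N l ⟨_, ht⟩)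
  rw [hEqa] at hw'
  rw [hEqb]
  exact qExpand_tq_mem_place l p A hA hb hl hln hp
    (modularFunctionFieldFullC (IsLocalRing.ResidueField ↥A) (N * l)) hta hya w hw'

include hA in
/-- **The hypothesis `hReg` of `Brandt36.node_of_aux`** (with `φ = β̄`, `ψ = ᾱ`,
`Reg = RegT A N ht`), from the regularity of `t̄` at the nodes. -/
theorem hReg_of_nodes (hb : BaseHyp n e) (hl : l.Prime) (hln : ¬ l ∣ n) (hp : ¬ p ∣ n * l)
    (ht : tq (IsLocalRing.ResidueField ↥A) n e ∈
      modularFunctionFieldFullC (IsLocalRing.ResidueField ↥A) N)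
    (hα : (alphaC (IsLocalRing.ResidueField ↥A) N l).toRingHom.IsIntegral)
    (hβ : (betaC (IsLocalRing.ResidueField ↥A) N l).toRingHom.IsIntegral)
    [HasPrincipalDivisors (IsLocalRing.ResidueField ↥A)
      ↥(modularFunctionFieldFullC (IsLocalRing.ResidueField ↥A) (N * l))]
    {ι : Type*} (vE : ι → Place (IsLocalRing.ResidueField ↥A)
      ↥(modularFunctionFieldFullC (IsLocalRing.ResidueField ↥A) N))
    (hnode : ∀ i, RegT A N ht (vE i)) :
    ∀ i, ∀ w ∈ Place.fiberAlong (alphaC (IsLocalRing.ResidueField ↥A) N l) hα (vE i),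
      RegT A N ht (w.restrictAlong (betaC (IsLocalRing.ResidueField ↥A) N l) hβ) := by
  intro i w hw
  refine regT_restrictAlong_betaC l p A hA N hb hl hln hp ht hα hβ w ?_
  rw [Place.mem_fiberAlong.1 hw]
  exact hnode i

include hA in
/-- **`t̄ ∈ k_N`**: the reduction of the Hauptmodul lies in the function field of `X₀(N)` over `κ`
(`p ∤ N`, `t ∈ ℚ̄·F_N`). -/
theorem tq_res_mem_fullC (hpN : ¬ p ∣ N) (hmem : TMem n e N) :
    tq (IsLocalRing.ResidueField ↥A) n e ∈
      modularFunctionFieldFullC (IsLocalRing.ResidueField ↥A) N := by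
  have h := Fermat.Agent.ES.RED.RedMem16.coeffMap_residue_mem_fullC A p hA hpN (tq ↥A n e)
    (by rw [coeffMap_tq]; exact hmem)
  rwa [coeffMap_tq] at h

include hA in
/-- `t̄ = tq κ 4 8 ∈ k_N` for `4 ∣ N`, `p ∤ N`. -/
theorem tq_res_mem_fullC_four (hpN : ¬ p ∣ N) (h4 : 4 ∣ N) :
    tq (IsLocalRing.ResidueField ↥A) 4 8 ∈
      modularFunctionFieldFullC (IsLocalRing.ResidueField ↥A) N :=
  tq_res_mem_fullC p A hA N hpN (tMem_of_dvd baseHyp_four h4)

include hA in
/-- **`hReg` for the Hauptmodul `t̄ = tq κ 4 8` of `X₀(4)`**, `4 ∣ N`, `l` prime, `l ∤ N`,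
`p ∤ N l`. -/
theorem hReg_of_nodes_four (h4 : 4 ∣ N) (hl : l.Prime) (hlN : ¬ l ∣ N) (hpNl : ¬ p ∣ N * l)
    (ht : tq (IsLocalRing.ResidueField ↥A) 4 8 ∈
      modularFunctionFieldFullC (IsLocalRing.ResidueField ↥A) N)
    (hα : (alphaC (IsLocalRing.ResidueField ↥A) N l).toRingHom.IsIntegral)
    (hβ : (betaC (IsLocalRing.ResidueField ↥A) N l).toRingHom.IsIntegral)
    [HasPrincipalDivisors (IsLocalRing.ResidueField ↥A)
      ↥(modularFunctionFieldFullC (IsLocalRing.ResidueField ↥A) (N * l))]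
    {ι : Type*} (vE : ι → Place (IsLocalRing.ResidueField ↥A)
      ↥(modularFunctionFieldFullC (IsLocalRing.ResidueField ↥A) N))
    (hnode : ∀ i, RegT A N ht (vE i)) :
    ∀ i, ∀ w ∈ Place.fiberAlong (alphaC (IsLocalRing.ResidueField ↥A) N l) hα (vE i),
      RegT A N ht (w.restrictAlong (betaC (IsLocalRing.ResidueField ↥A) N l) hβ) :=
  hReg_of_nodes l p A hA N baseHyp_four hl (fun h => hlN (h.trans h4))
    (fun h => hpNl (h.trans (Nat.mul_dvd_mul_right h4 l))) ht hα hβ vE hnode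

end Fermat.Agent.T1B.AuxUnit29
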