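/-
Programme T1B (S44), cell R2/BRANDT, W4 (G2) AUX-UNIT, part (iv) (helper29): `RegBeta` for ANY pair
of maps `ψ` ("inclusion", `↑(ψ x) = ↑x`) and `φ` ("`q ↦ q^l`", `↑(φ x) = (↑x)(q^l)`)
`k_N →ₐ[κ] k_{N l}` — so that both `Brandt27.alphaC/betaC` and `Hecke87.CharPX0.alphaC/betaC` fit
— and the instance for `Hecke87.CharPX0.alphaC/betaC` (the maps of `Brandt36/Hub`).

* `regT_restrictAlong_of_coe`, `hReg_of_nodes_of_coe` (generic in the maps);
* `regT_restrictAlong_betaC87`, `hReg_of_nodes87`, `hReg_of_nodes_four87`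
  (`Hecke87.CharPX0.alphaC/betaC`).
-/
import Mathlib
import Fermat.Agent.T1B.AuxUnit29.RegBeta
import Fermat.Agent.T1B.Hecke87.CharPX0

set_option autoImplicit false
set_option linter.unusedSectionVars false
set_option linter.style.haveILetI false
set_option synthInstance.maxHeartbeats 400000

open ModularCurve HahnSeries AlgebraicCurve

noncomputable section

namespace Fermat.Agent.T1B.AuxUnit29

open Fermat.Agent.RED.Interface4
open Fermat.Agent.RED.BASE.EtaQuot12 Fermat.Agent.RED.BASE.Interface12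
open Fermat.Agent.RED.BASE.Hauptmodul12

variable {n e : ℕ} [NeZero n] (l : ℕ) [NeZero l] (p : ℕ) [Fact p.Prime]
  (A : ValuationSubring Qbar) (hA : A.LiesOverPrime p) (N : ℕ) [NeZero N]

include hA in
/-- **(iv), generic in the maps**: if `t̄` is regular at `ψ^* w` then it is regular at `φ^* w`. -/
theorem regT_restrictAlong_of_coe (hb : BaseHyp n e) (hl : l.Prime) (hln : ¬ l ∣ n)
    (hp : ¬ p ∣ n * l)
    (ht : tq (IsLocalRing.ResidueField ↥A) n e ∈
      modularFunctionFieldFullC (IsLocalRing.ResidueField ↥A) N)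
    (φ ψ : ↥(modularFunctionFieldFullC (IsLocalRing.ResidueField ↥A) N) →ₐ[IsLocalRing.ResidueField ↥A]
      ↥(modularFunctionFieldFullC (IsLocalRing.ResidueField ↥A) (N * l)))
    (hφc : ∀ x, ((φ x : ↥(modularFunctionFieldFullC (IsLocalRing.ResidueField ↥A) (N * l))) :
      LaurentSeries (IsLocalRing.ResidueField ↥A)) =
        qExpand (IsLocalRing.ResidueField ↥A) l (x : LaurentSeries (IsLocalRing.ResidueField ↥A)))
    (hψc : ∀ x, ((ψ x : ↥(modularFunctionFieldFullC (IsLocalRing.ResidueField ↥A) (N * l))) :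
      LaurentSeries (IsLocalRing.ResidueField ↥A)) =
        (x : LaurentSeries (IsLocalRing.ResidueField ↥A)))
    (hφ : φ.toRingHom.IsIntegral) (hψ : ψ.toRingHom.IsIntegral)
    (w : Place (IsLocalRing.ResidueField ↥A)
      ↥(modularFunctionFieldFullC (IsLocalRing.ResidueField ↥A) (N * l)))
    (hw : RegT A N ht (w.restrictAlong ψ hψ)) :
    RegT A N ht (w.restrictAlong φ hφ) := by
  have hw' : ψ ⟨_, ht⟩ ∈ w.toValuationSubring := hw
  show φ ⟨_, ht⟩ ∈ w.toValuationSubring
  have hta : tq (IsLocalRing.ResidueField ↥A) n e ∈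
      modularFunctionFieldFullC (IsLocalRing.ResidueField ↥A) (N * l) := by
    have := (ψ ⟨_, ht⟩).2
    rwa [hψc ⟨_, ht⟩] at this
  have hya : qExpand (IsLocalRing.ResidueField ↥A) l (tq (IsLocalRing.ResidueField ↥A) n e) ∈
      modularFunctionFieldFullC (IsLocalRing.ResidueField ↥A) (N * l) := by
    have := (φ ⟨_, ht⟩).2
    rwa [hφc ⟨_, ht⟩] at this
  have hEqa : ψ ⟨_, ht⟩ =
      (⟨tq (IsLocalRing.ResidueField ↥A) n e, hta⟩ :
        ↥(modularFunctionFieldFullC (IsLocalRing.ResidueField ↥A) (N * l))) :=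
    Subtype.ext (hψc ⟨_, ht⟩)
  have hEqb : φ ⟨_, ht⟩ =
      (⟨qExpand (IsLocalRing.ResidueField ↥A) l (tq (IsLocalRing.ResidueField ↥A) n e), hya⟩ :
        ↥(modularFunctionFieldFullC (IsLocalRing.ResidueField ↥A) (N * l))) :=
    Subtype.ext (hφc ⟨_, ht⟩)
  rw [hEqa] at hw'
  rw [hEqb]
  exact qExpand_tq_mem_place l p A hA hb hl hln hp
    (modularFunctionFieldFullC (IsLocalRing.ResidueField ↥A) (N * l)) hta hya w hw'

include hA in
/-- **(iv) for `Hecke87.CharPX0.alphaC/betaC`**. -/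
theorem regT_restrictAlong_betaC87 (hb : BaseHyp n e) (hl : l.Prime) (hln : ¬ l ∣ n)
    (hp : ¬ p ∣ n * l)
    (ht : tq (IsLocalRing.ResidueField ↥A) n e ∈
      modularFunctionFieldFullC (IsLocalRing.ResidueField ↥A) N)
    (hα : (Hecke87.CharPX0.alphaC (IsLocalRing.ResidueField ↥A) N l).toRingHom.IsIntegral)
    (hβ : (Hecke87.CharPX0.betaC (IsLocalRing.ResidueField ↥A) N l).toRingHom.IsIntegral)
    (w : Place (IsLocalRing.ResidueField ↥A)
      ↥(modularFunctionFieldFullC (IsLocalRing.ResidueField ↥A) (N * l)))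
    (hw : RegT A N ht
      (w.restrictAlong (Hecke87.CharPX0.alphaC (IsLocalRing.ResidueField ↥A) N l) hα)) :
    RegT A N ht (w.restrictAlong (Hecke87.CharPX0.betaC (IsLocalRing.ResidueField ↥A) N l) hβ) :=
  regT_restrictAlong_of_coe l p A hA N hb hl hln hp ht _ _
    (Hecke87.CharPX0.coe_betaC (IsLocalRing.ResidueField ↥A) N l)
    (Hecke87.CharPX0.coe_alphaC (IsLocalRing.ResidueField ↥A) N l) hβ hα w hw

include hA in
/-- **`hReg` for `Hecke87.CharPX0.alphaC/betaC`**, in the shape of `Brandt36/Hub.AuxPackage`: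
`w` over a place where `t̄` is regular. -/
theorem hReg_of_restrictAlong_eq87 (hb : BaseHyp n e) (hl : l.Prime) (hln : ¬ l ∣ n)
    (hp : ¬ p ∣ n * l)
    (ht : tq (IsLocalRing.ResidueField ↥A) n e ∈
      modularFunctionFieldFullC (IsLocalRing.ResidueField ↥A) N)
    (hα : (Hecke87.CharPX0.alphaC (IsLocalRing.ResidueField ↥A) N l).toRingHom.IsIntegral)
    (hβ : (Hecke87.CharPX0.betaC (IsLocalRing.ResidueField ↥A) N l).toRingHom.IsIntegral)
    (v : Place (IsLocalRing.ResidueField ↥A)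
      ↥(modularFunctionFieldFullC (IsLocalRing.ResidueField ↥A) N)) (hv : RegT A N ht v)
    (w : Place (IsLocalRing.ResidueField ↥A)
      ↥(modularFunctionFieldFullC (IsLocalRing.ResidueField ↥A) (N * l)))
    (hwv : w.restrictAlong (Hecke87.CharPX0.alphaC (IsLocalRing.ResidueField ↥A) N l) hα = v) :
    RegT A N ht (w.restrictAlong (Hecke87.CharPX0.betaC (IsLocalRing.ResidueField ↥A) N l) hβ) :=
  regT_restrictAlong_betaC87 l p A hA N hb hl hln hp ht hα hβ w (by rw [hwv]; exact hv)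

include hA in
/-- the same for `(n, e) = (4, 8)`, `4 ∣ N`, `l ∤ N`, `p ∤ N l`. -/
theorem hReg_of_restrictAlong_eq_four87 (h4 : 4 ∣ N) (hl : l.Prime) (hlN : ¬ l ∣ N)
    (hpNl : ¬ p ∣ N * l)
    (ht : tq (IsLocalRing.ResidueField ↥A) 4 8 ∈
      modularFunctionFieldFullC (IsLocalRing.ResidueField ↥A) N)
    (hα : (Hecke87.CharPX0.alphaC (IsLocalRing.ResidueField ↥A) N l).toRingHom.IsIntegral)
    (hβ : (Hecke87.CharPX0.betaC (IsLocalRing.ResidueField ↥A) N l).toRingHom.IsIntegral)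
    (v : Place (IsLocalRing.ResidueField ↥A)
      ↥(modularFunctionFieldFullC (IsLocalRing.ResidueField ↥A) N)) (hv : RegT A N ht v)
    (w : Place (IsLocalRing.ResidueField ↥A)
      ↥(modularFunctionFieldFullC (IsLocalRing.ResidueField ↥A) (N * l)))
    (hwv : w.restrictAlong (Hecke87.CharPX0.alphaC (IsLocalRing.ResidueField ↥A) N l) hα = v) :
    RegT A N ht (w.restrictAlong (Hecke87.CharPX0.betaC (IsLocalRing.ResidueField ↥A) N l) hβ) :=
  hReg_of_restrictAlong_eq87 l p A hA N baseHyp_four hl (fun h => hlN (h.trans h4))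
    (fun h => hpNl (h.trans (Nat.mul_dvd_mul_right h4 l))) ht hα hβ v hv w hwv

end Fermat.Agent.T1B.AuxUnit29
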