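/-
Programme T1B (S44), cell R2/BRANDT, W4 (G2) AUX-UNIT, part (iv) (helper29), adapters.

* `res_mem_of_isIntegral_adjoin` (abstract; Mathlib + `IntRel` only): `O₁` a valuation subring of
  `F`, `res₁ : O₁ →+* k`, `W → F` a base ring with image in `O₁`, `t ∈ O₁`.  A valuation subring `O`
  of `k` containing `res₁ W` and `res₁ t` contains `res₁ b` for every `b ∈ O₁` integral over
  `W[t]`.  Hence for a chart `B0` integral over `W[t]` (`hint0`):
  `(∀ b ∈ B0, res₁ b ∈ O_v) ↔ res₁ t ∈ O_v`, i.e. `Reg v := res₁ B0 ⊆ O_v` IS `t̄ ∈ O_v`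
  (`regChart_iff`).
-/
import Mathlib
import Fermat.Agent.T1B.AuxUnit29.IntRel

set_option autoImplicit false

namespace Fermat.Agent.T1B.AuxUnit29

variable {F k W : Type*} [Field F] [Field k] [CommRing W] [Algebra W F]

/-- **Reduction of integral elements**: a valuation subring of the residue field containing the
reductions of the constants `W` and of `t` contains the reduction of every element of `O₁` which is
integral over `W[t]`. -/
theorem res_mem_of_isIntegral_adjoin (O₁ : ValuationSubring F) (res₁ : ↥O₁ →+* k) {t : F}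
    (ht : t ∈ O₁) (hW : ∀ a : W, algebraMap W F a ∈ O₁) (O : ValuationSubring k)
    (hWO : ∀ a : W, res₁ ⟨algebraMap W F a, hW a⟩ ∈ O) (htO : res₁ ⟨t, ht⟩ ∈ O)
    {b : F} (hb : b ∈ O₁) (hint : IsIntegral (Algebra.adjoin W {t}) b) :
    res₁ ⟨b, hb⟩ ∈ O := by
  have h1 : IntRel (algebraMap W F) t b := intRel_of_isIntegral_adjoin hint
  let a₁ : W →+* ↥O₁ := (algebraMap W F).codRestrict O₁.toSubring hW
  have h2 : IntRel a₁ (⟨t, ht⟩ : ↥O₁) ⟨b, hb⟩ := by
    refine IntRel.of_map_injective O₁.subtype Subtype.val_injective ?_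
    have hc : (O₁.subtype : ↥O₁ →+* F).comp a₁ = algebraMap W F := RingHom.ext fun _ => rfl
    rw [hc]
    exact h1
  have h3 : IntRel (res₁.comp a₁) (res₁ ⟨t, ht⟩) (res₁ ⟨b, hb⟩) :=
    h2.map (RingHom.id W) res₁ (res₁.comp a₁) (by rw [RingHom.comp_id])
  exact h3.mem_valuationSubring O (fun a => hWO a) htO

/-- **`Reg v := res₁ B0 ⊆ O_v` is `t̄ ∈ O_v`** for a chart `B0 ⊆ O₁` integral over `W[t]`, `t ∈ B0`. -/
theorem regChart_iff (O₁ : ValuationSubring F) (res₁ : ↥O₁ →+* k) {t : F}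
    (hW : ∀ a : W, algebraMap W F a ∈ O₁) (B0 : Set F) (hB : ∀ b ∈ B0, b ∈ O₁)
    (htB : t ∈ B0) (hint0 : ∀ b ∈ B0, IsIntegral (Algebra.adjoin W {t}) b)
    (O : ValuationSubring k) (hWO : ∀ a : W, res₁ ⟨algebraMap W F a, hW a⟩ ∈ O) :
    (∀ b (hb : b ∈ B0), res₁ ⟨b, hB b hb⟩ ∈ O) ↔ res₁ ⟨t, hB t htB⟩ ∈ O :=
  ⟨fun h => h t htB, fun h b hb =>
    res_mem_of_isIntegral_adjoin O₁ res₁ (hB t htB) hW O hWO h (hB b hb) (hint0 b hb)⟩

end Fermat.Agent.T1B.AuxUnit29
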