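/-
Programme T1B (S44), cell R2/BRANDT, W4 (helper29), adapter: **`RegT` at level `N l` versus `RegT`
at level `N` along `ᾱ`**: `RegT A (N*l) ht' w ↔ RegT A N ht (w.restrictAlong ᾱ hα)`, for any map `ψ`
with `↑(ψ x) = ↑x` (in particular `Hecke87.CharPX0.alphaC` and `Brandt27.alphaC`); and the
combined statement for the assembler: for `w` over a place `v` with `t̄` regular,
`w.ord U = 0 ∧ RegT (β̄^* w)`.
-/
import Mathlib
import Fermat.Agent.T1B.AuxUnit29.RegBetaGen
import Fermat.Agent.T1B.AuxUnit29.UnitRes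

set_option autoImplicit false
set_option linter.unusedSectionVars false
set_option linter.style.haveILetI false
set_option synthInstance.maxHeartbeats 400000

open ModularCurve HahnSeries AlgebraicCurve

noncomputable section

namespace Fermat.Agent.T1B.AuxUnit29

open Fermat.Agent.RED.Interface4
open Fermat.Agent.RED.BASE.EtaQuot12 Fermat.Agent.RED.BASE.Interface12
open Fermat.Agent.RED.BASE.Hauptmodul12
open Fermat.Agent.T1B.TestElt79

variable {n e : ℕ} [NeZero n] (l : ℕ) [NeZero l] (p : ℕ) [Fact p.Prime]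
  (A : ValuationSubring Qbar) (hA : A.LiesOverPrime p) (N : ℕ) [NeZero N]

/-- `RegT` at level `N l` is `RegT` at level `N` of the restriction along the inclusion. -/
theorem regT_level_iff
    (ht : tq (IsLocalRing.ResidueField ↥A) n e ∈
      modularFunctionFieldFullC (IsLocalRing.ResidueField ↥A) N)
    (ht' : tq (IsLocalRing.ResidueField ↥A) n e ∈
      modularFunctionFieldFullC (IsLocalRing.ResidueField ↥A) (N * l))
    (ψ : ↥(modularFunctionFieldFullC (IsLocalRing.ResidueField ↥A) N) →ₐ[IsLocalRing.ResidueField ↥A]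
      ↥(modularFunctionFieldFullC (IsLocalRing.ResidueField ↥A) (N * l)))
    (hψc : ∀ x, ((ψ x : ↥(modularFunctionFieldFullC (IsLocalRing.ResidueField ↥A) (N * l))) :
      LaurentSeries (IsLocalRing.ResidueField ↥A)) =
        (x : LaurentSeries (IsLocalRing.ResidueField ↥A)))
    (hψ : ψ.toRingHom.IsIntegral)
    (w : Place (IsLocalRing.ResidueField ↥A)
      ↥(modularFunctionFieldFullC (IsLocalRing.ResidueField ↥A) (N * l))) :
    RegT A (N * l) ht' w ↔ RegT A N ht (w.restrictAlong ψ hψ) := by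
  have hE : ψ ⟨_, ht⟩ = (⟨tq (IsLocalRing.ResidueField ↥A) n e, ht'⟩ :
      ↥(modularFunctionFieldFullC (IsLocalRing.ResidueField ↥A) (N * l))) :=
    Subtype.ext (hψc ⟨_, ht⟩)
  show (⟨tq (IsLocalRing.ResidueField ↥A) n e, ht'⟩ :
      ↥(modularFunctionFieldFullC (IsLocalRing.ResidueField ↥A) (N * l))) ∈ w.toValuationSubring ↔
    ψ ⟨_, ht⟩ ∈ w.toValuationSubring
  rw [hE]

include hA in
/-- **W4 for the assembler** (`Hecke87.CharPX0.alphaC/betaC`, `(n, e) = (4, 8)`, `4 ∣ M'`): for `w`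
over a place `v` of `k_{M'}` at which `t̄` is regular: `ord_w Ū = 0` and `t̄` is regular at
`β̄^* w`. -/
theorem ord_U_and_regT_of_restrictAlong_eq (M' : ℕ) [NeZero M'] (h4 : 4 ∣ M') (hl : l.Prime)
    (hlM : ¬ l ∣ M') (hpMl : ¬ p ∣ M' * l)
    (ht : tq (IsLocalRing.ResidueField ↥A) 4 8 ∈
      modularFunctionFieldFullC (IsLocalRing.ResidueField ↥A) M')
    (U : ↥(modularFunctionFieldFullC (IsLocalRing.ResidueField ↥A) (M' * l)))
    (hU : (U : LaurentSeries (IsLocalRing.ResidueField ↥A)) =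
      h0S (IsLocalRing.ResidueField ↥A) l)
    (hα : (Hecke87.CharPX0.alphaC (IsLocalRing.ResidueField ↥A) M' l).toRingHom.IsIntegral)
    (hβ : (Hecke87.CharPX0.betaC (IsLocalRing.ResidueField ↥A) M' l).toRingHom.IsIntegral)
    (v : Place (IsLocalRing.ResidueField ↥A)
      ↥(modularFunctionFieldFullC (IsLocalRing.ResidueField ↥A) M')) (hv : RegT A M' ht v)
    (w : Place (IsLocalRing.ResidueField ↥A)
      ↥(modularFunctionFieldFullC (IsLocalRing.ResidueField ↥A) (M' * l)))
    (hwv : w.restrictAlong (Hecke87.CharPX0.alphaC (IsLocalRing.ResidueField ↥A) M' l) hα = v) :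
    w.ord U = 0 ∧
      RegT A M' ht
        (w.restrictAlong (Hecke87.CharPX0.betaC (IsLocalRing.ResidueField ↥A) M' l) hβ) := by
  have ht' : tq (IsLocalRing.ResidueField ↥A) 4 8 ∈
      modularFunctionFieldFullC (IsLocalRing.ResidueField ↥A) (M' * l) :=
    tq_res_mem_fullC_four p A hA (M' * l) hpMl (Dvd.dvd.mul_right h4 l)
  have hw : RegT A (M' * l) ht' w :=
    (regT_level_iff l A M' ht ht' _ (Hecke87.CharPX0.coe_alphaC _ M' l) hα w).2
      (by rw [hwv]; exact hv)
  exact ⟨ord_U_eq_zero_level l p A hA M' h4 hl hlM hpMl ht' U hU w hw,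
    hReg_of_restrictAlong_eq_four87 l p A hA M' h4 hl hlM hpMl ht hα hβ v hv w hwv⟩

end Fermat.Agent.T1B.AuxUnit29
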