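/-
Programme T1B (S44), cell R2/BRANDT, W4 (G2) AUX-UNIT (helper29): **generic Route B**.

`(n, e) = (4, 8)` or `(9, 3)`, `L = n l` a GOOD level (`p ∤ n l`), `A ≤ ℚ̄` a valuation ring over `p`,
`κ = A / 𝔪_A`.

* `exists_isIntegral_of_field` : for all large number fields `K`: `t = tq K n e ∈ K·F_n`, and every
  `y ∈ K·F_{nl}` with an `(A ∩ K)`-integral `q`-expansion which is integral over `K[t]` is integral
  over `(A ∩ K)[t]` (Gauss-integral + `ϖ`-saturation of the chart at the good level,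
  `LevelSat16.levelSat_t'` + `SatIntegral18.mem_of_isIntegral_field`);
* `intRel_res_of_isIntegral` : such a `y = embK Y₀` gives `IntRel C t̄ (Y₀ mod 𝔪)` in `κ((q))`
  (transport `K·F_{nl} → K((q)) ⊇ (A ∩ K)((q)) → κ((q))`).
-/
import Mathlib
import Fermat.Agent.T1B.AuxUnit29.IntRel
import Fermat.Agent.ES.N34.ModEq23
import Fermat.Agent.ES.RED.LevelSat16
import Fermat.Agent.RED.ModelFinal4
import Fermat.Agent.RED.CUSP.RankConcrete16
import Fermat.Agent.ES.RED.Contract8

set_option autoImplicit false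
set_option linter.unusedSectionVars false
set_option linter.style.haveILetI false
set_option synthInstance.maxHeartbeats 400000

open ModularCurve HahnSeries

noncomputable section

namespace Fermat.Agent.T1B.AuxUnit29

open Fermat.Agent.RED.Interface4 Fermat.Agent.RED.DESC.NumberFieldDVR27
open Fermat.Agent.RED.PUR.GaussGen8 Fermat.Agent.RED.PUR.GaussBridge10
open Fermat.Agent.RED.PUR.ChartGeneric22
open Fermat.Agent.RED.BASE.EtaQuot12 Fermat.Agent.RED.BASE.Interface12
open Fermat.Agent.RED.BASE.Hauptmodul12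
open Fermat.Agent.ES.N34.ModelDefs9 Fermat.Agent.ES.N34.ModEq23
open Fermat.Agent.ES.N34.SatIntegral18
open Fermat.Agent.ES.RED.ChartIntegralA1 Fermat.Agent.ES.RED.LevelSat16
open Fermat.Agent.ES.RED.Contract8

variable {n e : ℕ} [NeZero n] (l : ℕ) [NeZero l] (p : ℕ) [Fact p.Prime]
  (A : ValuationSubring Qbar) (hA : A.LiesOverPrime p)

include hA in
set_option maxHeartbeats 4000000 in
/-- **Generic fibre + Gauss-integral ⇒ integral over `(A ∩ K)[t]`**, at the good level `n l`, for all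
large number fields `K`. -/
theorem exists_isIntegral_of_field (hb : BaseHyp n e) (hp : ¬ p ∣ n * l) :
    ∃ K₀ : IntermediateField ℚ Qbar, FiniteDimensional ℚ ↥K₀ ∧
      ∀ K : IntermediateField ℚ Qbar, FiniteDimensional ℚ ↥K → K₀ ≤ K →
        ∃ ht : tq (↥K) n e ∈ FK n K, ∀ y : ↥(FK (n * l) K),
          (∃ Y₀ : LaurentSeries ↥(AK A K), (y : LaurentSeries ↥K) = embK (AK A K) Y₀) →
          IsIntegral (Algebra.adjoin ↥K {tN l ht}) y →
          IsIntegral (Algebra.adjoin ↥(AK A K) {tN l ht}) y := by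
  have hpp : p.Prime := Fact.out
  have hmemL : TMem n e (n * l) := tMem_of_dvd hb (dvd_mul_right n l)
  obtain ⟨K₂, hfin₂, Hsat⟩ := levelSat_t' A n e p hp hmemL (tGenBase' hb) hA
  obtain ⟨K₁, hfin₁, HT⟩ := Fermat.Agent.RED.ModelFinal4.tTarget (n := n) (e := e) n (tMem hb)
  haveI := hfin₁
  haveI := hfin₂
  refine ⟨K₁ ⊔ K₂, inferInstance, fun K hfin hK => ?_⟩
  have hK₁ : K₁ ≤ K := le_sup_left.trans hK
  have hK₂ : K₂ ≤ K := le_sup_right.trans hK
  refine ⟨HT K hfin hK₁, ?_⟩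
  set ht := HT K hfin hK₁ with hht
  intro y hyA hI
  obtain ⟨Y₀, hY₀⟩ := hyA
  haveI hdvr : IsDiscreteValuationRing ↥(AK A K) := isDiscreteValuationRing_AK A K hpp.ne_zero hA
  obtain ⟨ϖ, hϖ⟩ := IsDiscreteValuationRing.exists_irreducible ↥(AK A K)
  have hu : IsUnif (AK A K) ϖ := isUnif_of_irreducible (AK A K) hϖ
  have hsatK := Hsat K hfin hK₂ ϖ hϖ hu (tN l ht)
    (Fermat.Agent.RED.CUSP.RankConcrete16.baseChangeHom_eq_tF (n * l) K hmemL (tN l ht)
      (coe_tN l ht))
  have dvrR : ∀ r : ↥(AK A K), r ≠ 0 → ∃ (k : ℕ) (v : (↥(AK A K))ˣ), r = ϖ ^ k * v := by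
    intro r hr
    obtain ⟨k, v, hv⟩ := IsDiscreteValuationRing.eq_unit_mul_pow_irreducible hr hϖ
    exact ⟨k, v, by rw [hv, mul_comm]⟩
  have hπ : algebraMap ↥(AK A K) ↥(FK (n * l) K) ϖ ∈ OvK A K (n * l) hu :=
    algebraMap_mem_OvK A (n * l) K hu ϖ
  have hy : y ∈ OvK A K (n * l) hu := by
    rw [mem_OvK_iff, hY₀]
    exact embK_mem (AK A K) _
  have hB : ∀ x : ↥(FK (n * l) K), IsIntegral (Algebra.adjoin ↥(AK A K) {tN l ht}) x →
      x ∈ chart ↥(AK A K) (tN l ht) := fun x hx => mem_chart_iff.2 hx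
  have hmem : y ∈ chart ↥(AK A K) (tN l ht) :=
    mem_of_isIntegral_field (R := ↥(AK A K)) (K := ↥K) (F := ↥(FK (n * l) K)) ϖ dvrR
      (tN l ht) (chart ↥(AK A K) (tN l ht)) hB (OvK A K (n * l) hu) (OvK A K (n * l) hu) hπ hπ
      (fun b hb c hc _ hbc => hsatK b hb c hc hbc) hI hy hy
  exact mem_chart_iff.1 hmem

set_option maxHeartbeats 1000000 in
/-- **Transport to `κ((q))`**: an element `y = embK Y₀` of `K·F_{nl}` integral over `(A ∩ K)[t]` gives
a relation `IntRel C t̄ Ȳ₀` in `κ((q))`. -/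
theorem intRel_res_of_isIntegral {K : IntermediateField ℚ Qbar} (ht : tq (↥K) n e ∈ FK n K)
    (y : ↥(FK (n * l) K)) (Y₀ : LaurentSeries ↥(AK A K))
    (hY₀ : (y : LaurentSeries ↥K) = embK (AK A K) Y₀)
    (hI : IsIntegral (Algebra.adjoin ↥(AK A K) {tN l ht}) y) :
    IntRel (HahnSeries.C : IsLocalRing.ResidueField ↥A →+*
        LaurentSeries (IsLocalRing.ResidueField ↥A))
      (tq (IsLocalRing.ResidueField ↥A) n e)
      (coeffMap ((IsLocalRing.residue ↥A).comp (incl A K)) Y₀) := by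
  have h1 := intRel_of_isIntegral_adjoin hI
  have h2 := h1.map (RingHom.id _) (FK (n * l) K).val.toRingHom
    ((embK (AK A K)).comp HahnSeries.C) (RingHom.ext fun r => by
      simp only [RingHom.comp_apply, RingHom.id_apply]
      rw [embK_C]
      exact Fermat.Agent.RED.NumInst4.coe_algebraMap_OE (AK A K) (FK (n * l) K) r)
  have hT : (FK (n * l) K).val.toRingHom (tN l ht) = embK (AK A K) (tq ↥(AK A K) n e) := by
    show ((tN l ht : FK (n * l) K) : LaurentSeries K) = _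
    rw [coe_tN]
    unfold embK
    rw [coeffMap_tq]
  have hY : (FK (n * l) K).val.toRingHom y = embK (AK A K) Y₀ := hY₀
  rw [hT, hY] at h2
  have h3 := IntRel.of_map_injective (embK (AK A K)) (embK_injective _) h2
  have h4 := h3.map ((IsLocalRing.residue ↥A).comp (incl A K))
    (coeffMap ((IsLocalRing.residue ↥A).comp (incl A K))) HahnSeries.C (RingHom.ext fun r => by
      simp only [RingHom.comp_apply]
      rw [Fermat.Agent.RED.PUR.GaussGen8.coeffMap_C]
      rfl)
  rw [coeffMap_tq] at h4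
  exact h4

end Fermat.Agent.T1B.AuxUnit29
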