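/-
Programme T1B (S44), cell R2/BRANDT, W4 (G2) AUX-UNIT, part (iii), Route B (helper29): **the reduced
modular unit `Ū = h0S κ l` has order `0` wherever `t̄` is regular**.

`U = U_4² U_{2l} / (U_2 U_{4l}²)` (`TestElt79.h0S`, `U_δ = Δ(q^δ)/Δ(q)`) is a modular unit of level
`4 l` whose divisor is supported over `t = ∞` (`TestElt79.isIntegral_h0S / isIntegral_h0Sinv`: `U` and
`U⁻¹` are integral over `K[t]`), with integral `q`-expansion.  By `SatGen` (saturation at the good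
level `4 l`, `p ∤ 4 l`) both are integral over `(A ∩ K)[t]`, and the relations reduce to `κ((q))`:

* `intRel_h0S_res`, `intRel_h0Sinv_res` : `IntRel C t̄ Ū`, `IntRel C t̄ Ū⁻¹` in `κ((q))`;
* `h0S_mem_of_tq_mem`, `h0Sinv_mem_of_tq_mem` : valuation-subring form in any `k ⊂ κ((q))`;
* `ord_h0S_eq_zero` : `w.ord Ū = 0` for every place `w` of `k` with `t̄ ∈ O_w`;
* `ord_U_eq_zero` : the same at `k = modularFunctionFieldFullC κ L` with `RegT`.
-/
import Mathlib
import Fermat.Agent.T1B.AuxUnit29.SatGen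
import Fermat.Agent.T1B.AuxUnit29.RegBeta
import Fermat.Agent.T1B.TestElt79.Series
import Fermat.Agent.X0.FFDict

set_option autoImplicit false
set_option linter.unusedSectionVars false
set_option linter.style.haveILetI false
set_option synthInstance.maxHeartbeats 400000

open ModularCurve HahnSeries AlgebraicCurve

noncomputable section

namespace Fermat.Agent.T1B.AuxUnit29

open Fermat.Agent.RED.Interface4 Fermat.Agent.RED.DESC.NumberFieldDVR27
open Fermat.Agent.RED.PUR.GaussGen8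
open Fermat.Agent.RED.BASE.EtaQuot12 Fermat.Agent.RED.BASE.Interface12
open Fermat.Agent.RED.BASE.Hauptmodul12
open Fermat.Agent.ES.N34.ModelDefs9 Fermat.Agent.ES.N34.ModEq23
open Fermat.Agent.T1B.TestElt79

variable (l : ℕ) [NeZero l] (p : ℕ) [Fact p.Prime]
  (A : ValuationSubring Qbar) (hA : A.LiesOverPrime p)

include hA in
set_option maxHeartbeats 1000000 in
/-- **`Ū` and `Ū⁻¹` are integral over `κ[t̄]`** (as explicit relations in `κ((q))`). -/
theorem intRel_h0S_res (hl : l.Prime) (hl2 : l ≠ 2) (hp : ¬ p ∣ 4 * l) :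
    IntRel (HahnSeries.C : IsLocalRing.ResidueField ↥A →+*
        LaurentSeries (IsLocalRing.ResidueField ↥A))
      (tq (IsLocalRing.ResidueField ↥A) 4 8) (h0S (IsLocalRing.ResidueField ↥A) l) ∧
    IntRel (HahnSeries.C : IsLocalRing.ResidueField ↥A →+*
        LaurentSeries (IsLocalRing.ResidueField ↥A))
      (tq (IsLocalRing.ResidueField ↥A) 4 8) (h0Sinv (IsLocalRing.ResidueField ↥A) l) := by
  obtain ⟨K, hfin, H⟩ := exists_isIntegral_of_field l p A hA baseHyp_four hp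
  obtain ⟨ht, Hy⟩ := H K hfin le_rfl
  have hd : 4 * l ∣ 4 * l := dvd_rfl
  -- `U`
  have hY₀ : (((⟨h0S ↥K l, h0S_mem_FK (4 * l) K l hd⟩ : FK (4 * l) K)) : LaurentSeries ↥K) =
      embK (AK A K) (h0S ↥(AK A K) l) := by
    show h0S ↥K l = _
    unfold embK
    rw [coeffMap_h0S]
  have hIK : IsIntegral (Algebra.adjoin ↥K {tN l ht})
      (⟨h0S ↥K l, h0S_mem_FK (4 * l) K l hd⟩ : FK (4 * l) K) :=
    isIntegral_of_coe_eq K _ (coe_tN l ht) rfl (isIntegral_h0S K l hl hl2)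
  have h1 := intRel_res_of_isIntegral l A ht
    (⟨h0S ↥K l, h0S_mem_FK (4 * l) K l hd⟩ : FK (4 * l) K) (h0S ↥(AK A K) l) hY₀
    (Hy _ ⟨_, hY₀⟩ hIK)
  rw [coeffMap_h0S] at h1
  -- `U⁻¹`
  have hY₀' : (((⟨h0Sinv ↥K l, h0Sinv_mem_FK (4 * l) K l hd⟩ : FK (4 * l) K)) :
      LaurentSeries ↥K) = embK (AK A K) (h0Sinv ↥(AK A K) l) := by
    show h0Sinv ↥K l = _
    unfold embK
    rw [coeffMap_h0Sinv]
  have hIK' : IsIntegral (Algebra.adjoin ↥K {tN l ht})
      (⟨h0Sinv ↥K l, h0Sinv_mem_FK (4 * l) K l hd⟩ : FK (4 * l) K) :=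
    isIntegral_of_coe_eq K _ (coe_tN l ht) rfl (isIntegral_h0Sinv K l hl hl2)
  have h2 := intRel_res_of_isIntegral l A ht
    (⟨h0Sinv ↥K l, h0Sinv_mem_FK (4 * l) K l hd⟩ : FK (4 * l) K) (h0Sinv ↥(AK A K) l) hY₀'
    (Hy _ ⟨_, hY₀'⟩ hIK')
  rw [coeffMap_h0Sinv] at h2
  exact ⟨h1, h2⟩

/-- descent of a relation in `κ((q))` to a valuation subring of an intermediate field. -/
theorem mem_of_intRel_C {κ : Type*} [Field κ] (k : IntermediateField κ (LaurentSeries κ))
    {T Y : LaurentSeries κ} (hT : T ∈ k) (hY : Y ∈ k)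
    (h : IntRel (HahnSeries.C : κ →+* LaurentSeries κ) T Y)
    (O : ValuationSubring ↥k) (hO : ∀ c : κ, algebraMap κ ↥k c ∈ O)
    (hreg : (⟨T, hT⟩ : ↥k) ∈ O) : (⟨Y, hY⟩ : ↥k) ∈ O := by
  have h' : IntRel (algebraMap κ ↥k) (⟨T, hT⟩ : ↥k) (⟨Y, hY⟩ : ↥k) := by
    refine IntRel.of_map_injective k.val.toRingHom k.val.toRingHom.injective ?_
    have hC : (k.val.toRingHom).comp (algebraMap κ ↥k) =
        (HahnSeries.C : κ →+* LaurentSeries κ) :=
      RingHom.ext fun r => algebraMap_eq_C r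
    rw [hC]
    exact h
  exact h'.mem_valuationSubring O hO hreg

include hA in
/-- **`ord_w Ū = 0` wherever `t̄` is regular**, in any intermediate field `k ⊂ κ((q))` containing
`t̄` and `Ū`. -/
theorem ord_h0S_eq_zero (hl : l.Prime) (hl2 : l ≠ 2) (hp : ¬ p ∣ 4 * l)
    (k : IntermediateField (IsLocalRing.ResidueField ↥A)
      (LaurentSeries (IsLocalRing.ResidueField ↥A)))
    (ht : tq (IsLocalRing.ResidueField ↥A) 4 8 ∈ k)
    (hU : h0S (IsLocalRing.ResidueField ↥A) l ∈ k)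
    (w : Place (IsLocalRing.ResidueField ↥A) ↥k)
    (hreg : (⟨tq (IsLocalRing.ResidueField ↥A) 4 8, ht⟩ : ↥k) ∈ w.toValuationSubring) :
    w.ord (⟨h0S (IsLocalRing.ResidueField ↥A) l, hU⟩ : ↥k) = 0 := by
  obtain ⟨h1, h2⟩ := intRel_h0S_res l p A hA hl hl2 hp
  have hUi : h0Sinv (IsLocalRing.ResidueField ↥A) l ∈ k := by
    rw [h0Sinv_eq_inv]
    exact k.inv_mem hU
  have m1 := mem_of_intRel_C k ht hU h1 w.toValuationSubring w.algebraMap_mem' hreg
  have m2 := mem_of_intRel_C k ht hUi h2 w.toValuationSubring w.algebraMap_mem' hreg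
  have e : (⟨h0Sinv (IsLocalRing.ResidueField ↥A) l, hUi⟩ : ↥k) =
      (⟨h0S (IsLocalRing.ResidueField ↥A) l, hU⟩ : ↥k)⁻¹ := by
    apply Subtype.ext
    rw [IntermediateField.coe_inv]
    exact h0Sinv_eq_inv l (IsLocalRing.ResidueField ↥A)
  have n1 := Fermat.Agent.X0.FF.ord_nonneg_of_mem w m1
  have n2 := Fermat.Agent.X0.FF.ord_nonneg_of_mem w m2
  rw [e, Place.ord_inv] at n2
  omega

include hA in
/-- **(iii)**: `w.ord Ū = 0` for every place `w` of `k_L = modularFunctionFieldFullC κ L` at which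
`t̄` is regular (`RegT`), for ANY `U : k_L` with `q`-expansion `h0S κ l`.  `l` an odd prime,
`p ∤ 4 l`. -/
theorem ord_U_eq_zero (L : ℕ) [NeZero L] (hl : l.Prime) (hl2 : l ≠ 2) (hp : ¬ p ∣ 4 * l)
    (ht : tq (IsLocalRing.ResidueField ↥A) 4 8 ∈
      modularFunctionFieldFullC (IsLocalRing.ResidueField ↥A) L)
    (U : ↥(modularFunctionFieldFullC (IsLocalRing.ResidueField ↥A) L))
    (hU : (U : LaurentSeries (IsLocalRing.ResidueField ↥A)) =
      h0S (IsLocalRing.ResidueField ↥A) l)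
    (w : Place (IsLocalRing.ResidueField ↥A)
      ↥(modularFunctionFieldFullC (IsLocalRing.ResidueField ↥A) L))
    (hw : RegT A L ht w) : w.ord U = 0 := by
  have hU' : h0S (IsLocalRing.ResidueField ↥A) l ∈
      modularFunctionFieldFullC (IsLocalRing.ResidueField ↥A) L := hU ▸ U.2
  have hUe : U = ⟨h0S (IsLocalRing.ResidueField ↥A) l, hU'⟩ := Subtype.ext hU
  rw [hUe]
  exact ord_h0S_eq_zero l p A hA hl hl2 hp
    (modularFunctionFieldFullC (IsLocalRing.ResidueField ↥A) L) ht hU' w hw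

include hA in
/-- **(iii) in the shape of the `AuxData` assembler**: level `L = M' l`, `4 ∣ M'`, `l` prime,
`l ∤ M'`, `p ∤ M' l`. -/
theorem ord_U_eq_zero_level (M' : ℕ) [NeZero M'] (h4 : 4 ∣ M') (hl : l.Prime) (hlM : ¬ l ∣ M')
    (hpMl : ¬ p ∣ M' * l)
    (ht : tq (IsLocalRing.ResidueField ↥A) 4 8 ∈
      modularFunctionFieldFullC (IsLocalRing.ResidueField ↥A) (M' * l))
    (U : ↥(modularFunctionFieldFullC (IsLocalRing.ResidueField ↥A) (M' * l)))
    (hU : (U : LaurentSeries (IsLocalRing.ResidueField ↥A)) =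
      h0S (IsLocalRing.ResidueField ↥A) l)
    (w : Place (IsLocalRing.ResidueField ↥A)
      ↥(modularFunctionFieldFullC (IsLocalRing.ResidueField ↥A) (M' * l)))
    (hw : RegT A (M' * l) ht w) : w.ord U = 0 :=
  ord_U_eq_zero l p A hA (M' * l) hl
    (fun h => hlM (h ▸ (Dvd.intro 2 rfl : (2 : ℕ) ∣ 4).trans h4))
    (fun h => hpMl (h.trans (Nat.mul_dvd_mul_right h4 l))) ht U hU w hw

end Fermat.Agent.T1B.AuxUnit29
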